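/-
helper402 (squad S23/S42), piece W4: level-one rational structure and transport.

Every level-one modular form (resp. cusp form) of weight `k` is a `ℂ`-linear combination of
level-one modular forms (resp. cusp forms) of the same weight whose `q`-expansion has integer
coefficients.  Consequently, for every additive map `ρ : ℂ →+ ℂ` (in particular every ring
endomorphism of `ℂ` and every `ℚ`-linear map) the coefficientwise image of the `q`-expansion of a
level-one form is again the `q`-expansion of a level-one form of the same weight.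
-/
import Mathlib.NumberTheory.ModularForms.LevelOne.GradedRing
import Mathlib.NumberTheory.ModularForms.LevelOne.DimensionFormula
import Mathlib.NumberTheory.ModularForms.EisensteinSeries.QExpansion
import Mathlib.NumberTheory.Bernoulli
import Mathlib.RingTheory.PowerSeries.Basic

set_option autoImplicit false

noncomputable section

open UpperHalfPlane ModularForm SlashInvariantForm SlashInvariantFormClass ModularFormClass
  CuspFormClass MatrixGroups EisensteinSeries

namespace Fermat.Agent.S23.H402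

/-- The subring of `ℂ⟦X⟧` of power series with integer coefficients. -/
def intSeries : Subring (PowerSeries ℂ) := (PowerSeries.map (Int.castRingHom ℂ)).range

lemma mem_intSeries_iff {P : PowerSeries ℂ} :
    P ∈ intSeries ↔ ∀ n : ℕ, ∃ m : ℤ, PowerSeries.coeff n P = (m : ℂ) := by
  constructor
  · rintro ⟨Q, rfl⟩ n
    exact ⟨PowerSeries.coeff n Q, by simp⟩
  · intro h
    choose m hm using h
    refine ⟨PowerSeries.mk m, ?_⟩
    ext n
    simp [hm n]

lemma intCast_smul_mem_intSeries {P : PowerSeries ℂ} (hP : P ∈ intSeries) (m : ℤ) :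
    (m : ℂ) • P ∈ intSeries := by
  rw [mem_intSeries_iff] at hP ⊢
  intro n
  obtain ⟨a, ha⟩ := hP n
  exact ⟨m * a, by simp [ha]⟩

/-- Level-one modular forms of weight `k` with integral `q`-expansion. -/
def IntForm (k : ℤ) : Set (ModularForm 𝒮ℒ k) := {g | qExpansion 1 g ∈ intSeries}

/-- Level-one cusp forms of weight `k` with integral `q`-expansion. -/
def IntCuspForm (k : ℤ) : Set (CuspForm 𝒮ℒ k) := {g | qExpansion 1 g ∈ intSeries}

/-! ### Eisenstein series -/

/-- A suitable positive integer multiple of the Eisenstein series `E_k` has integral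
`q`-expansion. -/
lemma exists_smul_E_mem_intForm {k : ℕ} (hk : 3 ≤ k) (hk2 : Even k) :
    ∃ d : ℕ, 0 < d ∧ ((d : ℂ) • E hk) ∈ IntForm k := by
  set r : ℚ := -(2 * (k : ℚ) / bernoulli k) with hr
  refine ⟨r.den, r.den_pos, ?_⟩
  change qExpansion 1 ⇑((r.den : ℂ) • E hk) ∈ intSeries
  rw [FunLike.coe_smul, ModularForm.qExpansion_smul one_pos one_mem_strictPeriods_SL,
    mem_intSeries_iff]
  intro n
  rw [PowerSeries.coeff_smul, E_qExpansion_coeff hk hk2 n]
  split_ifs with hn
  · exact ⟨r.den, by simp⟩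
  · refine ⟨r.num * (ArithmeticFunction.sigma (k - 1) n : ℤ), ?_⟩
    have h1 : (-(2 * (k : ℂ) / ((bernoulli k : ℚ) : ℂ))) = ((r : ℚ) : ℂ) := by
      rw [hr]; push_cast; ring
    have h2 : ((r.den : ℚ) : ℂ) * ((r : ℚ) : ℂ) = ((r.num : ℚ) : ℂ) := by
      rw [← Rat.cast_mul, Rat.den_mul_eq_num]
    rw [h1, smul_eq_mul, ← mul_assoc]
    have h3 : ((r.den : ℕ) : ℂ) = ((r.den : ℚ) : ℂ) := by push_cast; rfl
    rw [h3, h2]
    push_cast
    ring

/-! ### The discriminant -/

/-- `E₄³ - E₆²` as a level-one modular form of weight `12`. -/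
def e4CubeSubE6Sq : ModularForm 𝒮ℒ 12 :=
  ModularForm.mcast (by decide) (E₄.pow 3) - ModularForm.mcast (by decide) (E₆.pow 2)

lemma e4CubeSubE6Sq_apply (z : ℍ) : e4CubeSubE6Sq z = E₄ z ^ 3 - E₆ z ^ 2 := by
  simp only [e4CubeSubE6Sq, coe_mcast, coe_pow, sub_apply, Pi.pow_apply]

lemma qExpansion_E4_mem_intSeries : qExpansion 1 E₄ ∈ intSeries := by
  rw [mem_intSeries_iff]
  intro n
  rw [E_qExpansion_coeff (by norm_num) ⟨2, rfl⟩ n]
  split_ifs with hn
  · exact ⟨1, by simp⟩
  · refine ⟨240 * (ArithmeticFunction.sigma 3 n : ℤ), ?_⟩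
    have hb : bernoulli 4 = -1 / 30 := by
      rw [bernoulli_eq_bernoulli'_of_ne_one (by norm_num), bernoulli'_four]
    rw [hb]
    push_cast
    norm_num

lemma bernoulli_six_eq : bernoulli 6 = 1 / 42 := by
  rw [bernoulli_eq_bernoulli'_of_ne_one (by norm_num)]
  rw [bernoulli'_def]
  norm_num [Finset.sum_range_succ, bernoulli'_zero, bernoulli'_one, bernoulli'_two,
    bernoulli'_three, bernoulli'_four, Nat.choose]
  rw [bernoulli'_def]
  norm_num [Finset.sum_range_succ, bernoulli'_zero, bernoulli'_one, bernoulli'_two,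
    bernoulli'_three, bernoulli'_four, Nat.choose]

lemma qExpansion_E6_mem_intSeries : qExpansion 1 E₆ ∈ intSeries := by
  rw [mem_intSeries_iff]
  intro n
  rw [E_qExpansion_coeff (by norm_num) ⟨3, rfl⟩ n]
  split_ifs with hn
  · exact ⟨1, by simp⟩
  · refine ⟨-504 * (ArithmeticFunction.sigma 5 n : ℤ), ?_⟩
    rw [bernoulli_six_eq]
    push_cast
    norm_num

lemma qExpansion_e4CubeSubE6Sq_mem_intSeries : qExpansion 1 e4CubeSubE6Sq ∈ intSeries := by
  have h : qExpansion 1 e4CubeSubE6Sq = qExpansion 1 E₄ ^ 3 - qExpansion 1 E₆ ^ 2 := by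
    simp only [e4CubeSubE6Sq, FunLike.coe_sub, coe_mcast,
      ModularForm.qExpansion_sub one_pos one_mem_strictPeriods_SL,
      ModularForm.qExpansion_pow one_pos one_mem_strictPeriods_SL]
  rw [h]
  exact intSeries.sub_mem (intSeries.pow_mem qExpansion_E4_mem_intSeries 3)
    (intSeries.pow_mem qExpansion_E6_mem_intSeries 2)

lemma smul_discriminant_eq : ((1728 : ℂ) • (ModularForm.discriminant : ℍ → ℂ)) = ⇑e4CubeSubE6Sq := by
  ext z
  rw [Pi.smul_apply, smul_eq_mul, e4CubeSubE6Sq_apply, discriminant_eq_E₄_cube_sub_E₆_sq z]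
  ring

/-- `1728 Δ` has integral `q`-expansion. -/
lemma smul_qExpansion_discriminant_mem_intSeries :
    (1728 : ℂ) • qExpansion 1 ModularForm.discriminant ∈ intSeries := by
  have h := ModularForm.qExpansion_smul one_pos one_mem_strictPeriods_SL (1728 : ℂ)
    CuspForm.discriminant
  rw [CuspForm.coe_discriminant] at h
  rw [← h, smul_discriminant_eq]
  exact qExpansion_e4CubeSubE6Sq_mem_intSeries


/-! ### Multiplication by the discriminant -/

/-- Multiplication by `Δ` as a linear map `M_{k-12} → S_k`. -/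
def mulDisc (k : ℤ) : ModularForm 𝒮ℒ (k - 12) →ₗ[ℂ] CuspForm 𝒮ℒ k :=
  (CuspForm.discriminantEquiv (k := k)).symm.toLinearMap

lemma mulDisc_apply (k : ℤ) (g : ModularForm 𝒮ℒ (k - 12)) (z : ℍ) :
    mulDisc k g z = ModularForm.discriminant z * g z := rfl

lemma coe_mulDisc (k : ℤ) (g : ModularForm 𝒮ℒ (k - 12)) :
    (⇑(mulDisc k g) : ℍ → ℂ) = ⇑CuspForm.discriminant * ⇑g := by
  ext z
  rfl

lemma qExpansion_mulDisc (k : ℤ) (g : ModularForm 𝒮ℒ (k - 12)) :
    qExpansion 1 (mulDisc k g) = qExpansion 1 ModularForm.discriminant * qExpansion 1 g := by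
  rw [coe_mulDisc, ← CuspForm.coe_discriminant]
  exact ModularForm.qExpansion_mul_coe one_pos one_mem_strictPeriods_SL _ _

lemma smul_mulDisc_mem_intCuspForm (k : ℤ) {g : ModularForm 𝒮ℒ (k - 12)}
    (hg : g ∈ IntForm (k - 12)) : (1728 : ℂ) • mulDisc k g ∈ IntCuspForm k := by
  change qExpansion 1 ⇑((1728 : ℂ) • mulDisc k g) ∈ intSeries
  rw [FunLike.coe_smul, ModularForm.qExpansion_smul one_pos one_mem_strictPeriods_SL,
    qExpansion_mulDisc, ← smul_mul_assoc]
  exact intSeries.mul_mem smul_qExpansion_discriminant_mem_intSeries hg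

lemma mulDisc_mem_span_intCuspForm (k : ℤ) {g : ModularForm 𝒮ℒ (k - 12)}
    (hg : g ∈ Submodule.span ℂ (IntForm (k - 12))) :
    mulDisc k g ∈ Submodule.span ℂ (IntCuspForm k) := by
  induction hg using Submodule.span_induction with
  | mem x hx =>
    have h := Submodule.smul_mem (Submodule.span ℂ (IntCuspForm k)) ((1728 : ℂ)⁻¹)
      (Submodule.subset_span (smul_mulDisc_mem_intCuspForm k hx))
    rwa [smul_smul, inv_mul_cancel₀ (by norm_num), one_smul] at h
  | zero => simp
  | add x y _ _ hx hy => rw [map_add]; exact Submodule.add_mem _ hx hy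
  | smul a x _ hx => rw [map_smul]; exact Submodule.smul_mem _ _ hx

lemma toModularFormₗ_mem_span_intForm (k : ℤ) {f : CuspForm 𝒮ℒ k}
    (hf : f ∈ Submodule.span ℂ (IntCuspForm k)) :
    CuspForm.toModularFormₗ f ∈ Submodule.span ℂ (IntForm k) := by
  induction hf using Submodule.span_induction with
  | mem x hx => exact Submodule.subset_span hx
  | zero => simp
  | add x y _ _ hx hy => rw [map_add]; exact Submodule.add_mem _ hx hy
  | smul a x _ hx => rw [map_smul]; exact Submodule.smul_mem _ _ hx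


/-! ### Spanning by integral forms -/

lemma E_mem_span_intForm {k : ℕ} (hk : 3 ≤ k) (hk2 : Even k) :
    E hk ∈ Submodule.span ℂ (IntForm k) := by
  obtain ⟨d, hd, hE⟩ := exists_smul_E_mem_intForm hk hk2
  have h := Submodule.smul_mem (Submodule.span ℂ (IntForm k)) ((d : ℂ)⁻¹)
    (Submodule.subset_span hE)
  rwa [smul_smul, inv_mul_cancel₀ (by exact_mod_cast hd.ne'), one_smul] at h

lemma mem_span_intForm_step {k : ℕ} (hk : 3 ≤ k) (hk2 : Even k)
    (ih : ∀ g : ModularForm 𝒮ℒ ((k : ℤ) - 12), g ∈ Submodule.span ℂ (IntForm ((k : ℤ) - 12)))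
    (f : ModularForm 𝒮ℒ k) : f ∈ Submodule.span ℂ (IntForm k) := by
  have hE0 : (qExpansion 1 (E hk)).coeff 0 = 1 := E_qExpansion_coeff_zero hk hk2
  obtain ⟨g, hg⟩ := sub_smul_isCuspForm f (E hk) hE0
  have hg' : g = mulDisc k (CuspForm.discriminantEquiv g) :=
    ((CuspForm.discriminantEquiv (k := (k : ℤ))).symm_apply_apply g).symm
  have h1 : g ∈ Submodule.span ℂ (IntCuspForm k) := by
    rw [hg']
    exact mulDisc_mem_span_intCuspForm k (ih _)
  have h2 := toModularFormₗ_mem_span_intForm k h1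
  rw [hg] at h2
  have h3 := Submodule.add_mem _ h2
    (Submodule.smul_mem _ ((qExpansion 1 f).coeff 0) (E_mem_span_intForm hk hk2))
  rwa [sub_add_cancel] at h3

lemma one_mem_intForm : (1 : ModularForm 𝒮ℒ 0) ∈ IntForm 0 := by
  change qExpansion 1 ⇑(1 : ModularForm 𝒮ℒ 0) ∈ intSeries
  rw [ModularForm.qExpansion_one]
  exact intSeries.one_mem

/-- **Level-one rational structure.** Every level-one modular form of weight `k` is a `ℂ`-linear
combination of level-one modular forms of weight `k` with integral `q`-expansion. -/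
theorem mem_span_intForm (k : ℤ) (f : ModularForm 𝒮ℒ k) :
    f ∈ Submodule.span ℂ (IntForm k) := by
  suffices H : ∀ n : ℕ, ∀ k : ℤ, k < n → ∀ f : ModularForm 𝒮ℒ k,
      f ∈ Submodule.span ℂ (IntForm k) from H (k.toNat + 1) k (by omega) f
  intro n
  induction n with
  | zero =>
    intro k hk f
    have : f = 0 := DFunLike.coe_injective
      (ModularFormClass.levelOne_neg_weight_eq_zero (by simpa using hk) f)
    rw [this]
    exact Submodule.zero_mem _
  | succ n ih =>
    intro k hk f
    by_cases hkn : k < n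
    · exact ih k hkn f
    obtain rfl : k = (n : ℤ) := by push_cast at hk; omega
    rcases Nat.even_or_odd n with hev | hodd
    · rcases Nat.lt_or_ge n 3 with h3 | h3
      · -- n = 0 or n = 2
        have h02 : n = 0 ∨ n = 2 := by
          rcases hev with ⟨m, hm⟩
          omega
        rcases h02 with rfl | rfl
        · obtain ⟨c, hc⟩ := ModularFormClass.levelOne_weight_zero_const (F := ModularForm 𝒮ℒ 0)
            (show ModularForm 𝒮ℒ 0 from f)
          have hf : f = c • (1 : ModularForm 𝒮ℒ 0) := by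
            ext z
            have := congrFun hc z
            simpa using this
          rw [hf]
          exact Submodule.smul_mem _ _ (Submodule.subset_span one_mem_intForm)
        · have : f = 0 := rank_zero_iff_forall_zero.mp levelOne_weight_two_rank_zero f
          rw [this]
          exact Submodule.zero_mem _
      · exact mem_span_intForm_step h3 hev (fun g => ih _ (by omega) g) f
    · have : f = 0 := levelOne_odd_weight_eq_zero (by exact_mod_cast hodd) f
      rw [this]
      exact Submodule.zero_mem _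

/-- Every level-one cusp form of weight `k` is a `ℂ`-linear combination of level-one cusp forms of
weight `k` with integral `q`-expansion. -/
theorem mem_span_intCuspForm (k : ℤ) (f : CuspForm 𝒮ℒ k) :
    f ∈ Submodule.span ℂ (IntCuspForm k) := by
  have hf : f = mulDisc k (CuspForm.discriminantEquiv f) :=
    ((CuspForm.discriminantEquiv (k := k)).symm_apply_apply f).symm
  rw [hf]
  exact mulDisc_mem_span_intCuspForm k (mem_span_intForm _ _)

/-! ### Transport along additive maps -/

lemma map_mul_intCast (ρ : ℂ →+ ℂ) (c : ℂ) (m : ℤ) : ρ (c * (m : ℂ)) = ρ c * (m : ℂ) := by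
  rw [mul_comm, ← zsmul_eq_mul, map_zsmul, zsmul_eq_mul, mul_comm]

/-- **Transport (modular forms).** For every additive map `ρ : ℂ →+ ℂ` and every level-one
modular form `f` there is a level-one modular form of the same weight whose `q`-expansion is
obtained by applying `ρ` coefficientwise. -/
theorem exists_modularForm_coeff_eq {k : ℤ} (ρ : ℂ →+ ℂ) (f : ModularForm 𝒮ℒ k) :
    ∃ g : ModularForm 𝒮ℒ k, ∀ n : ℕ,
      (qExpansion 1 g).coeff n = ρ ((qExpansion 1 f).coeff n) := by
  suffices H : ∀ c : ℂ, ∃ g : ModularForm 𝒮ℒ k, ∀ n : ℕ,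
      (qExpansion 1 g).coeff n = ρ (c * (qExpansion 1 f).coeff n) by
    simpa using H 1
  have hf := mem_span_intForm k f
  induction hf using Submodule.span_induction with
  | mem x hx =>
    intro c
    refine ⟨ρ c • x, fun n => ?_⟩
    obtain ⟨m, hm⟩ := mem_intSeries_iff.mp hx n
    rw [FunLike.coe_smul, ModularForm.qExpansion_smul one_pos one_mem_strictPeriods_SL,
      PowerSeries.coeff_smul, hm, smul_eq_mul, map_mul_intCast]
  | zero =>
    intro c
    refine ⟨0, fun n => ?_⟩
    simp [qExpansion_zero]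
  | add x y _ _ hx hy =>
    intro c
    obtain ⟨gx, hgx⟩ := hx c
    obtain ⟨gy, hgy⟩ := hy c
    refine ⟨gx + gy, fun n => ?_⟩
    rw [FunLike.coe_add, ModularForm.qExpansion_add one_pos one_mem_strictPeriods_SL, map_add,
      hgx, hgy, FunLike.coe_add, ModularForm.qExpansion_add one_pos one_mem_strictPeriods_SL,
      map_add, mul_add, map_add]
  | smul a x _ hx =>
    intro c
    obtain ⟨g, hg⟩ := hx (c * a)
    refine ⟨g, fun n => ?_⟩
    rw [hg, FunLike.coe_smul, ModularForm.qExpansion_smul one_pos one_mem_strictPeriods_SL,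
      PowerSeries.coeff_smul, smul_eq_mul, mul_assoc]

/-- **Transport (cusp forms).** -/
theorem exists_cuspForm_coeff_eq {k : ℤ} (ρ : ℂ →+ ℂ) (f : CuspForm 𝒮ℒ k) :
    ∃ g : CuspForm 𝒮ℒ k, ∀ n : ℕ,
      (qExpansion 1 g).coeff n = ρ ((qExpansion 1 f).coeff n) := by
  suffices H : ∀ c : ℂ, ∃ g : CuspForm 𝒮ℒ k, ∀ n : ℕ,
      (qExpansion 1 g).coeff n = ρ (c * (qExpansion 1 f).coeff n) by
    simpa using H 1
  have hf := mem_span_intCuspForm k f
  induction hf using Submodule.span_induction with
  | mem x hx =>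
    intro c
    refine ⟨ρ c • x, fun n => ?_⟩
    obtain ⟨m, hm⟩ := mem_intSeries_iff.mp hx n
    rw [FunLike.coe_smul, ModularForm.qExpansion_smul one_pos one_mem_strictPeriods_SL,
      PowerSeries.coeff_smul, hm, smul_eq_mul, map_mul_intCast]
  | zero =>
    intro c
    refine ⟨0, fun n => ?_⟩
    simp [qExpansion_zero]
  | add x y _ _ hx hy =>
    intro c
    obtain ⟨gx, hgx⟩ := hx c
    obtain ⟨gy, hgy⟩ := hy c
    refine ⟨gx + gy, fun n => ?_⟩
    rw [FunLike.coe_add, ModularForm.qExpansion_add one_pos one_mem_strictPeriods_SL, map_add,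
      hgx, hgy, FunLike.coe_add, ModularForm.qExpansion_add one_pos one_mem_strictPeriods_SL,
      map_add, mul_add, map_add]
  | smul a x _ hx =>
    intro c
    obtain ⟨g, hg⟩ := hx (c * a)
    refine ⟨g, fun n => ?_⟩
    rw [hg, FunLike.coe_smul, ModularForm.qExpansion_smul one_pos one_mem_strictPeriods_SL,
      PowerSeries.coeff_smul, smul_eq_mul, mul_assoc]

/-- Transport of level-one modular forms along a ring endomorphism of `ℂ`. -/
theorem exists_modularForm_qExpansion_map {k : ℤ} (σ : ℂ →+* ℂ) (f : ModularForm 𝒮ℒ k) :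
    ∃ g : ModularForm 𝒮ℒ k, qExpansion 1 g = (qExpansion 1 f).map σ := by
  obtain ⟨g, hg⟩ := exists_modularForm_coeff_eq σ.toAddMonoidHom f
  exact ⟨g, PowerSeries.ext fun n => by rw [hg n, PowerSeries.coeff_map]; rfl⟩

/-- Transport of level-one cusp forms along a ring endomorphism of `ℂ`. -/
theorem exists_cuspForm_qExpansion_map {k : ℤ} (σ : ℂ →+* ℂ) (f : CuspForm 𝒮ℒ k) :
    ∃ g : CuspForm 𝒮ℒ k, qExpansion 1 g = (qExpansion 1 f).map σ := by
  obtain ⟨g, hg⟩ := exists_cuspForm_coeff_eq σ.toAddMonoidHom f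
  exact ⟨g, PowerSeries.ext fun n => by rw [hg n, PowerSeries.coeff_map]; rfl⟩

/-- Transport of level-one modular forms along a `ℚ`-linear map `ℂ → ℂ`. -/
theorem exists_modularForm_coeff_eq_of_linearMap {k : ℤ} (ρ : ℂ →ₗ[ℚ] ℂ)
    (f : ModularForm 𝒮ℒ k) :
    ∃ g : ModularForm 𝒮ℒ k, ∀ n : ℕ,
      (qExpansion 1 g).coeff n = ρ ((qExpansion 1 f).coeff n) :=
  exists_modularForm_coeff_eq ρ.toAddMonoidHom f

/-- Transport of level-one cusp forms along a `ℚ`-linear map `ℂ → ℂ`. -/
theorem exists_cuspForm_coeff_eq_of_linearMap {k : ℤ} (ρ : ℂ →ₗ[ℚ] ℂ)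
    (f : CuspForm 𝒮ℒ k) :
    ∃ g : CuspForm 𝒮ℒ k, ∀ n : ℕ,
      (qExpansion 1 g).coeff n = ρ ((qExpansion 1 f).coeff n) :=
  exists_cuspForm_coeff_eq ρ.toAddMonoidHom f

/-! ### The `q`-expansion of a level-one form lies in the `ℂ`-span of integral power series -/

theorem qExpansion_mem_span_intSeries {k : ℤ} (f : ModularForm 𝒮ℒ k) :
    qExpansion 1 f ∈ Submodule.span ℂ (intSeries : Set (PowerSeries ℂ)) := by
  have hf := mem_span_intForm k f
  induction hf using Submodule.span_induction with
  | mem x hx => exact Submodule.subset_span hx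
  | zero => simp [qExpansion_zero]
  | add x y _ _ hx hy =>
    rw [FunLike.coe_add, ModularForm.qExpansion_add one_pos one_mem_strictPeriods_SL]
    exact Submodule.add_mem _ hx hy
  | smul a x _ hx =>
    rw [FunLike.coe_smul, ModularForm.qExpansion_smul one_pos one_mem_strictPeriods_SL]
    exact Submodule.smul_mem _ _ hx

theorem qExpansion_cuspForm_mem_span_intSeries {k : ℤ} (f : CuspForm 𝒮ℒ k) :
    qExpansion 1 f ∈ Submodule.span ℂ (intSeries : Set (PowerSeries ℂ)) :=
  qExpansion_mem_span_intSeries (CuspForm.toModularFormₗ f)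

end Fermat.Agent.S23.H402
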